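import Mathlib
import Fermat.Agent.LT.T7.H311.ShapeTSpec
import Fermat.Agent.LT.T7.H802.PureShift

/-!
# Row LT, tower T7, leaf ShT.1 `H311.PureDC311` (cut of helper311 of `ST589.ShapeTC589`)
# (helper595, SPARE): PROVED

OFF-MAIN.  No hole, nothing assumed.  ADDITIVE (new names only, suffix `595`).

    pureDC595 (F) : H311.PureDC311 F                    (VERBATIM, UNCONDITIONAL, every number field)

Proof.  `S = T ∪ P`, `g₀ = extU503 T f₀`, `P₁ = pure305 S (update g₀ v 1)`.
* FACTORISATION: `pure305 S (update g₀ v ψ) Fc h = ψ (h_v) * P₁ h` (`v ∈ S`).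
* `P₁ (h y) = P₁ h` for `y` with trivial components outside `v`.
* So on the functions `Q θ = fun h => θ (h_v) * P₁ h`: `tStep589 (Q θ) = Q (locT311 θ)`,
  `sStep589 (Q θ) = Q (locS311 θ)`, and by the two-step induction
  `dStep589 d (Q θ) = Q (locD311 d θ)`.
* `pure305 T f₀ Fc = pure305 S g₀ Fc = Q (g₀ v)` (`pure_extU802`, helper802).
No equation lemma of a foreign definition is realised (`rfl` / `show` only).
-/

set_option autoImplicit false

open AutomorphicForm IsDedekindDomain NumberField MeasureTheory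

noncomputable section

namespace Fermat.Agent.LT.T7.H595

open Fermat.Agent.LT.H556 Fermat.Agent.LT.H556.A0 Fermat.Agent.LT.T7
open Fermat.Agent.LT.T7.H305 Fermat.Agent.LT.T7.H893 Fermat.Agent.LT.T7.B981
open Fermat.Agent.LT.T7.ST589 Fermat.Agent.LT.T7.H311

section PureD

variable {F : Type} [Field F] [NumberField F]

/-- The function `h ↦ θ (h_v) * P₁ h`. -/
def qFn595 (v : HeightOneSpectrum (𝓞 F)) (P₁ : G F → ℂ)
    (θ : GL (Fin 2) (v.adicCompletion F) → ℂ) : G F → ℂ :=
  fun h => θ (finGL305 v h) * P₁ h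

open Classical in
/-- FACTORISATION of a pure tensor in the component at `v ∈ S`. -/
theorem pure_fact595 {S : Finset (HeightOneSpectrum (𝓞 F))} {v : HeightOneSpectrum (𝓞 F)}
    (hvS : v ∈ S)
    (g₀ : ∀ v : HeightOneSpectrum (𝓞 F), GL (Fin 2) (v.adicCompletion F) → ℂ)
    (Fc : InfinitePlace F → GL (Fin 2) ℂ → ℂ)
    (ψ : GL (Fin 2) (v.adicCompletion F) → ℂ) (h : G F) :
    pure305 S (Function.update g₀ v ψ) Fc h
      = ψ (finGL305 v h) * pure305 S (Function.update g₀ v (fun _ => 1)) Fc h := by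
  by_cases hO : OutT305 S h
  · rw [H802.pure_pos802 _ _ hO, H802.pure_pos802 _ _ hO]
    have h1 : ∏ v' ∈ S, Function.update g₀ v ψ v' (finGL305 v' h)
        = ψ (finGL305 v h) * ∏ v' ∈ S.erase v, g₀ v' (finGL305 v' h) := by
      rw [← Finset.mul_prod_erase S _ hvS, Function.update_self]
      congr 1
      refine Finset.prod_congr rfl fun v' hv' => ?_
      rw [Function.update_of_ne (Finset.ne_of_mem_erase hv')]
    have h2 : ∏ v' ∈ S, Function.update g₀ v (fun _ => (1 : ℂ)) v' (finGL305 v' h)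
        = ∏ v' ∈ S.erase v, g₀ v' (finGL305 v' h) := by
      rw [← Finset.mul_prod_erase S _ hvS, Function.update_self, one_mul]
      refine Finset.prod_congr rfl fun v' hv' => ?_
      rw [Function.update_of_ne (Finset.ne_of_mem_erase hv')]
    rw [h1, h2, mul_assoc]
  · rw [H802.pure_neg802 _ _ hO, H802.pure_neg802 _ _ hO, mul_zero]

open Classical in
/-- The pure tensor with the component `1` at `v ∈ S` is invariant under the right
translations by the elements with trivial components outside `v`. -/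
theorem pure_one_mul595 {S : Finset (HeightOneSpectrum (𝓞 F))} {v : HeightOneSpectrum (𝓞 F)}
    (hvS : v ∈ S)
    (g₀ : ∀ v : HeightOneSpectrum (𝓞 F), GL (Fin 2) (v.adicCompletion F) → ℂ)
    (Fc : InfinitePlace F → GL (Fin 2) ℂ → ℂ) {y : G F}
    (hfin : ∀ v' : HeightOneSpectrum (𝓞 F), v' ≠ v → finGL305 v' y = 1)
    (hinf : ∀ w : InfinitePlace F, infGL305 w y = 1) (h : G F) :
    pure305 S (Function.update g₀ v (fun _ => 1)) Fc (h * y)
      = pure305 S (Function.update g₀ v (fun _ => 1)) Fc h := by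
  have hf : ∀ v' : HeightOneSpectrum (𝓞 F), v' ≠ v →
      finGL305 v' (h * y) = finGL305 v' h := by
    intro v' hv'
    rw [map_mul, hfin v' hv', mul_one]
  have hi : ∀ w : InfinitePlace F, infGL305 w (h * y) = infGL305 w h := by
    intro w
    rw [map_mul, hinf w, mul_one]
  have hOut : OutT305 S (h * y) ↔ OutT305 S h := by
    rw [H802.outT_iff802, H802.outT_iff802]
    refine forall_congr' fun v' => imp_congr_right fun hv'S => ?_
    have hne : v' ≠ v := fun e => hv'S (e ▸ hvS)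
    rw [hf v' hne]
  by_cases hO : OutT305 S h
  · rw [H802.pure_pos802 _ _ hO, H802.pure_pos802 _ _ (hOut.2 hO)]
    congr 1
    · refine Finset.prod_congr rfl fun v' _ => ?_
      by_cases hv' : v' = v
      · subst hv'
        rw [Function.update_self]
      · rw [Function.update_of_ne hv', hf v' hv']
    · exact Finset.prod_congr rfl fun w _ => by rw [hi w]
  · rw [H802.pure_neg802 _ _ hO, H802.pure_neg802 _ _ (fun hO' => hO (hOut.1 hO'))]

/-- The value of `qFn595` at a translate. -/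
theorem qFn_mul595 (v : HeightOneSpectrum (𝓞 F)) (P₁ : G F → ℂ)
    (hP₁ : ∀ (y : G F), (∀ v' : HeightOneSpectrum (𝓞 F), v' ≠ v → finGL305 v' y = 1) →
      (∀ w : InfinitePlace F, infGL305 w y = 1) → ∀ h : G F, P₁ (h * y) = P₁ h)
    (θ : GL (Fin 2) (v.adicCompletion F) → ℂ) {y : G F}
    (hfin : ∀ v' : HeightOneSpectrum (𝓞 F), v' ≠ v → finGL305 v' y = 1)
    (hinf : ∀ w : InfinitePlace F, infGL305 w y = 1) (h : G F) :
    qFn595 v P₁ θ (h * y) = θ (finGL305 v h * finGL305 v y) * P₁ h := by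
  show θ (finGL305 v (h * y)) * P₁ (h * y) = _
  rw [map_mul, hP₁ y hfin hinf h]

theorem fin_triv_of_local595 {v : HeightOneSpectrum (𝓞 F)} {y : G F} (hy : IsLocalAtFin v y) :
    ∀ v' : HeightOneSpectrum (𝓞 F), v' ≠ v → finGL305 v' y = 1 :=
  fun v' hv' => H802.finGL_eq_one802 (hy.2 v' hv')

theorem inf_triv_of_local595 {v : HeightOneSpectrum (𝓞 F)} {y : G F} (hy : IsLocalAtFin v y) :
    ∀ w : InfinitePlace F, infGL305 w y = 1 :=
  fun w => H802.infGL_eq_one802 (hy.1 w)

/-- The step of `S_v` on the functions `qFn595`. -/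
theorem sStep_qFn595 (v : HeightOneSpectrum (𝓞 F)) (P₁ : G F → ℂ)
    (hP₁ : ∀ (y : G F), (∀ v' : HeightOneSpectrum (𝓞 F), v' ≠ v → finGL305 v' y = 1) →
      (∀ w : InfinitePlace F, infGL305 w y = 1) → ∀ h : G F, P₁ (h * y) = P₁ h)
    {z : G F} (hz : IsLocalAtFin v z) (θ : GL (Fin 2) (v.adicCompletion F) → ℂ) :
    sStep589 z (qFn595 v P₁ θ) = qFn595 v P₁ (locS311 v z θ) := by
  funext h
  have hfin : ∀ v' : HeightOneSpectrum (𝓞 F), v' ≠ v → finGL305 v' z⁻¹ = 1 := by
    intro v' hv'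
    rw [map_inv, fin_triv_of_local595 hz v' hv', inv_one]
  have hinf : ∀ w : InfinitePlace F, infGL305 w z⁻¹ = 1 := by
    intro w
    rw [map_inv, inf_triv_of_local595 hz w, inv_one]
  show qFn595 v P₁ θ (h * z⁻¹) = θ (finGL305 v h * (finGL305 v z)⁻¹) * P₁ h
  rw [qFn_mul595 v P₁ hP₁ θ hfin hinf h, map_inv]

/-- The step of `T_v` on the functions `qFn595`. -/
theorem tStep_qFn595 (v : HeightOneSpectrum (𝓞 F)) (P₁ : G F → ℂ)
    (hP₁ : ∀ (y : G F), (∀ v' : HeightOneSpectrum (𝓞 F), v' ≠ v → finGL305 v' y = 1) →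
      (∀ w : InfinitePlace F, infGL305 w y = 1) → ∀ h : G F, P₁ (h * y) = P₁ h)
    {H : Finset (G F)} (hH : ∀ h ∈ H, IsLocalAtFin v h)
    {z : G F} (hz : IsLocalAtFin v z) (θ : GL (Fin 2) (v.adicCompletion F) → ℂ) :
    tStep589 v H z (qFn595 v P₁ θ) = qFn595 v P₁ (locT311 v H z θ) := by
  funext h
  show ((Real.sqrt (Ideal.absNorm v.asIdeal : ℝ) : ℝ) : ℂ)⁻¹
        * ∑ h' ∈ H, qFn595 v P₁ θ (h * z⁻¹ * h')
      = (((Real.sqrt (Ideal.absNorm v.asIdeal : ℝ) : ℝ) : ℂ)⁻¹
        * ∑ h' ∈ H, θ (finGL305 v h * (finGL305 v z)⁻¹ * finGL305 v h')) * P₁ h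
  rw [mul_assoc, Finset.sum_mul]
  congr 1
  refine Finset.sum_congr rfl fun h' hh' => ?_
  have hfin : ∀ v' : HeightOneSpectrum (𝓞 F), v' ≠ v → finGL305 v' (z⁻¹ * h') = 1 := by
    intro v' hv'
    rw [map_mul, map_inv, fin_triv_of_local595 hz v' hv',
      fin_triv_of_local595 (hH h' hh') v' hv', inv_one, mul_one]
  have hinf : ∀ w : InfinitePlace F, infGL305 w (z⁻¹ * h') = 1 := by
    intro w
    rw [map_mul, map_inv, inf_triv_of_local595 hz w, inf_triv_of_local595 (hH h' hh') w,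
      inv_one, mul_one]
  rw [mul_assoc h z⁻¹ h', qFn_mul595 v P₁ hP₁ θ hfin hinf h, map_mul, map_inv, mul_assoc]

theorem dStep_zero595 (v : HeightOneSpectrum (𝓞 F)) (H : Finset (G F)) (z : G F)
    (f : G F → ℂ) : dStep589 v H z 0 f = fun g => 2 * f g := rfl

theorem dStep_one595 (v : HeightOneSpectrum (𝓞 F)) (H : Finset (G F)) (z : G F)
    (f : G F → ℂ) : dStep589 v H z 1 f = tStep589 v H z f := rfl

theorem dStep_add_two595 (v : HeightOneSpectrum (𝓞 F)) (H : Finset (G F)) (z : G F) (d : ℕ)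
    (f : G F → ℂ) : dStep589 v H z (d + 2) f
      = fun g => tStep589 v H z (dStep589 v H z (d + 1) f) g
          - sStep589 z (dStep589 v H z d f) g := rfl

theorem locD_zero595 (v : HeightOneSpectrum (𝓞 F)) (H : Finset (G F)) (z : G F)
    (ψ : GL (Fin 2) (v.adicCompletion F) → ℂ) : locD311 v H z 0 ψ = fun x => 2 * ψ x := rfl

theorem locD_one595 (v : HeightOneSpectrum (𝓞 F)) (H : Finset (G F)) (z : G F)
    (ψ : GL (Fin 2) (v.adicCompletion F) → ℂ) : locD311 v H z 1 ψ = locT311 v H z ψ := rfl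

theorem locD_add_two595 (v : HeightOneSpectrum (𝓞 F)) (H : Finset (G F)) (z : G F) (d : ℕ)
    (ψ : GL (Fin 2) (v.adicCompletion F) → ℂ) : locD311 v H z (d + 2) ψ
      = fun x => locT311 v H z (locD311 v H z (d + 1) ψ) x
          - locS311 v z (locD311 v H z d ψ) x := rfl

/-- The step of the Dickson polynomial on the functions `qFn595`. -/
theorem dStep_qFn595 (v : HeightOneSpectrum (𝓞 F)) (P₁ : G F → ℂ)
    (hP₁ : ∀ (y : G F), (∀ v' : HeightOneSpectrum (𝓞 F), v' ≠ v → finGL305 v' y = 1) →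
      (∀ w : InfinitePlace F, infGL305 w y = 1) → ∀ h : G F, P₁ (h * y) = P₁ h)
    {H : Finset (G F)} (hH : ∀ h ∈ H, IsLocalAtFin v h)
    {z : G F} (hz : IsLocalAtFin v z) (d : ℕ) (θ : GL (Fin 2) (v.adicCompletion F) → ℂ) :
    dStep589 v H z d (qFn595 v P₁ θ) = qFn595 v P₁ (locD311 v H z d θ) := by
  induction d using Nat.twoStepInduction with
  | zero =>
    rw [dStep_zero595, locD_zero595]
    funext h
    show 2 * (θ (finGL305 v h) * P₁ h) = 2 * θ (finGL305 v h) * P₁ h
    rw [mul_assoc]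
  | one =>
    rw [dStep_one595, locD_one595]
    exact tStep_qFn595 v P₁ hP₁ hH hz θ
  | more d ih0 ih1 =>
    rw [dStep_add_two595, locD_add_two595, ih0, ih1, tStep_qFn595 v P₁ hP₁ hH hz,
      sStep_qFn595 v P₁ hP₁ hz]
    funext h
    show locT311 v H z (locD311 v H z (d + 1) θ) (finGL305 v h) * P₁ h
        - locS311 v z (locD311 v H z d θ) (finGL305 v h) * P₁ h
      = (locT311 v H z (locD311 v H z (d + 1) θ) (finGL305 v h)
          - locS311 v z (locD311 v H z d θ) (finGL305 v h)) * P₁ h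
    rw [sub_mul]

end PureD

/-- **LEAF ShT.1 = PURE-D, PROVED.** -/
theorem pureDC595 (F : Type) [Field F] [NumberField F] : H311.PureDC311 F := by
  classical
  intro T P f₀ Fc v hvP H z hH hz d h
  have hvS : v ∈ T ∪ P := Finset.mem_union_right T hvP
  have hHl : ∀ h' ∈ H, IsLocalAtFin v h' := fun h' hh' => (hH.2.1 h' hh').1
  have hzl : IsLocalAtFin v z := hz.1
  have hP₁ : ∀ (y : G F), (∀ v' : HeightOneSpectrum (𝓞 F), v' ≠ v → finGL305 v' y = 1) →
      (∀ w : InfinitePlace F, infGL305 w y = 1) → ∀ h : G F,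
      pure305 (T ∪ P) (Function.update (SS503.extU503 T f₀) v (fun _ => 1)) Fc (h * y)
        = pure305 (T ∪ P) (Function.update (SS503.extU503 T f₀) v (fun _ => 1)) Fc h :=
    fun y hfin hinf h => pure_one_mul595 hvS _ Fc hfin hinf h
  -- the pure tensor for `T` is `Q (g₀ v)`
  have hbase : pure305 T f₀ Fc
      = qFn595 v (pure305 (T ∪ P) (Function.update (SS503.extU503 T f₀) v (fun _ => 1)) Fc)
          (SS503.extU503 T f₀ v) := by
    funext y
    show pure305 T f₀ Fc y = SS503.extU503 T f₀ v (finGL305 v y)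
      * pure305 (T ∪ P) (Function.update (SS503.extU503 T f₀) v (fun _ => 1)) Fc y
    rw [← pure_fact595 hvS (SS503.extU503 T f₀) Fc (SS503.extU503 T f₀ v) y,
      Function.update_eq_self]
    exact (H802.pure_extU802 Finset.subset_union_left f₀ Fc y).symm
  rw [hbase, dStep_qFn595 v _ hP₁ hHl hzl d (SS503.extU503 T f₀ v)]
  exact pure_fact595 hvS (SS503.extU503 T f₀) Fc _ h

/-- Verbatim check. -/
example (F : Type) [Field F] [NumberField F] : Fermat.Agent.LT.T7.H311.PureDC311 F :=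
  pureDC595 F

end Fermat.Agent.LT.T7.H595

end
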